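/-
PROGRAMME II (S40), block A2 = K1 typing, THE SQUARES ON FRACTIONS (helper29).

Part 1, abstract over a node input `I : ExpandBR.NodeInput Xb i j hj hfull hcol C` with the DVR
hypothesis (helper20's `FF4/BdryFrac`): if `σB ∘ b1 = b1 ∘ σO` on the completed valuation ring and
`σL` extends `σO` to the completed field, then `σB ∘ b1F = b1F ∘ σL` (`b1F_comm`; `b2F_comm`).

Part 2 (file `FracEquivModular`), the modular tower (`I := BLift.nodeInput_modular …`): for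
`σ ∈ B.inertiaSubgroupIn ℚ` and a level `S` stable under the whole Galois group,
* `b1F_sigmaL`, `b2F_sigmaL` : `b1F (σ x) = mapCoeff (modConstHom σ) (b1F x)` for `x` in the
  COMPLETED FUNCTION FIELD of the component (landed squares `NodeBdry.modSigmaB1_b1`,
  `modSigmaB2_b2` + `modSigmaB1_eq_mapCoeff`, `modSigmaB2_eq_mapCoeff` of `ModularLead`);
* for a family `σΩ : I → Ω →+* Ω` of isometric extensions (`AbsB.sigmaOmegaI` at the tower):
  `layerConst g := modConstHom (out g)` and `b1F_layer_smul`, `b2F_layer_smul` :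
  `b1F (g • x) = mapCoeff (layerConst g) (b1F x)` for `g` in the finite Galois layer
  (`GaloisLayer`) = the hypotheses `he₀ … he₁'` of helper11's `AmiceLead.k1_abstract`.
-/
import Mathlib
import Fermat.Agent.FF4.BdryFrac
import Fermat.Agent.FF3.BLift.Node

set_option autoImplicit false
set_option linter.unusedSectionVars false
set_option synthInstance.maxHeartbeats 400000
set_option maxHeartbeats 4000000

noncomputable section

namespace Fermat.Agent.FF4.InertiaLead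

open AlgebraicCurve IsLocalRing Fermat.Agent.Red Fermat.Agent.BR.Centre Fermat.Agent.BR.SS
  Fermat.Agent.BR.Refine Fermat.Agent.BR.S0 Fermat.Agent.BR.S0.AnnulusChartOfLevels
  Fermat.Agent.FF3 Fermat.Agent.FF3.Amice Fermat.Agent.FF3.B4 Fermat.Agent.FF3.ExpandBR
  Fermat.Agent.FF4.BdryFrac

attribute [local instance] normedAlgebraSubfield

/-! ### Part 1: abstract -/

section Abstract

universe u w

variable {K : Type} {F : Type u} [Field K] [Field F] [Algebra K F]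
  {A : ValuationSubring K} [IsAlgClosed (ResidueField A)]
  {ι₀ : Type} {Ft₀ : ι₀ → Type} [∀ v, Field (Ft₀ v)] [∀ v, Algebra (ResidueField A) (Ft₀ v)]
  {ν₀ : Type} {S₀ : SemistableSetup (F := F) A (residue A) ι₀ Ft₀ ν₀} {e : ν₀} {ι : Type*}
  {L : AnnulusLevels A (tube S₀ e) ι} {Xb : BranchData S₀ e L} {i : ι}
  {Ω : Type w} [NormedField Ω] [IsUltrametricDist Ω] [CompleteSpace Ω]
  {j : K →+* Ω} {hj : ∀ c : K, ‖j c‖ ≤ 1 ↔ c ∈ A}
  {hfull : LevelFullRes L i} {hcol : DenseNearOne j}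
  {F₀ : Subfield F} {ϖ₀ : F₀} {C : CompPack.{0, u, 0, 0, 0, 0, w} S₀ F₀ ϖ₀}
  (I : NodeInput Xb i j hj hfull hcol C)

/-- **the square on the fraction field of the component `src e`** -/
theorem b1F_comm (hdv : IsDV C (S₀.src e))
    (σO : C.Oh (S₀.src e) →+* C.Oh (S₀.src e)) (σL : C.Lh (S₀.src e) →+* C.Lh (S₀.src e))
    (hσL : ∀ y : C.Oh (S₀.src e), σL (y : C.Lh (S₀.src e)) = ((σO y : C.Oh (S₀.src e)) :
      C.Lh (S₀.src e)))
    (σB : BAmice (constK₁ L i j) →+* BAmice (constK₁ L i j))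
    (hsq : ∀ y, σB (I.b1 y) = I.b1 (σO y)) (x : C.Lh (S₀.src e)) :
    σB (b1F I hdv x) = b1F I hdv (σL x) := by
  have key : σB.comp (b1F I hdv) = (b1F I hdv).comp σL := by
    refine IsLocalization.ringHom_ext (nonZeroDivisors (C.Oh (S₀.src e))) ?_
    refine RingHom.ext fun y => ?_
    show σB (b1F I hdv ((y : C.Oh (S₀.src e)) : C.Lh (S₀.src e))) =
      b1F I hdv (σL ((y : C.Oh (S₀.src e)) : C.Lh (S₀.src e)))
    rw [b1F_coe, hσL, b1F_coe, hsq]
  exact RingHom.congr_fun key x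

/-- **the square on the fraction field of the component `tgt e`** -/
theorem b2F_comm (hdv : IsDV C (S₀.tgt e))
    (σO : C.Oh (S₀.tgt e) →+* C.Oh (S₀.tgt e)) (σL : C.Lh (S₀.tgt e) →+* C.Lh (S₀.tgt e))
    (hσL : ∀ y : C.Oh (S₀.tgt e), σL (y : C.Lh (S₀.tgt e)) = ((σO y : C.Oh (S₀.tgt e)) :
      C.Lh (S₀.tgt e)))
    (σB : BAmice (constK₁ L i j) →+* BAmice (constK₁ L i j))
    (hsq : ∀ y, σB (I.b2 y) = I.b2 (σO y)) (x : C.Lh (S₀.tgt e)) :
    σB (b2F I hdv x) = b2F I hdv (σL x) := by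
  have key : σB.comp (b2F I hdv) = (b2F I hdv).comp σL := by
    refine IsLocalization.ringHom_ext (nonZeroDivisors (C.Oh (S₀.tgt e))) ?_
    refine RingHom.ext fun y => ?_
    show σB (b2F I hdv ((y : C.Oh (S₀.tgt e)) : C.Lh (S₀.tgt e))) =
      b2F I hdv (σL ((y : C.Oh (S₀.tgt e)) : C.Lh (S₀.tgt e)))
    rw [b2F_coe, hσL, b2F_coe, hsq]
  exact RingHom.congr_fun key x

end Abstract

/-! ### Part 1b: at helper16's `BLift.nodeInput` (component part `CompPack.ofDatum`) -/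

section Datum

open Fermat.Agent.FF3.DVCompl Fermat.Agent.FF3.BLift

universe u

variable {K : Type} {F : Type u} [Field K] [Field F] [Algebra K F]
  {A : ValuationSubring K} [IsAlgClosed (ResidueField A)]
  {ι₀ : Type} {Ft₀ : ι₀ → Type} [∀ v, Field (Ft₀ v)] [∀ v, Algebra (ResidueField A) (Ft₀ v)]
  {ν₀ : Type} {S₀ : SemistableSetup (F := F) A (residue A) ι₀ Ft₀ ν₀} {e : ν₀} {ι : Type*}
  {L : AnnulusLevels A (tube S₀ e) ι} (Xb : BranchData S₀ e L) (i : ι)
  {Ω : Type u} [NormedField Ω] [IsUltrametricDist Ω] [CompleteSpace Ω]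
  (j : K →+* Ω) (hj : ∀ c : K, ‖j c‖ ≤ 1 ↔ c ∈ A)
  (hfull : LevelFullRes L i) (hcol : DenseNearOne j)
  {F₀ : Subfield F} {ϖ₀ : F₀}
  (D : ι₀ → Datum F₀) (hO : ∀ v (x : F₀), x ∈ (D v).O₀ ↔ (x : F) ∈ S₀.O v)
  (hw : ∀ v, (D v).w = ϖ₀) (H : LevelLink L i ϖ₀)

/-- the square on the fraction field of the component `src e`, at `BLift.nodeInput` -/
theorem b1F_comm_datum
    (σO : (D (S₀.src e)).Oh ≃+* (D (S₀.src e)).Oh) (σL : (D (S₀.src e)).Lh ≃+* (D (S₀.src e)).Lh)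
    (hσL : ∀ y : (D (S₀.src e)).Oh, σL (y : (D (S₀.src e)).Lh) =
      ((σO y : (D (S₀.src e)).Oh) : (D (S₀.src e)).Lh))
    (σB : BAmice (constK₁ L i j) →+* BAmice (constK₁ L i j))
    (hsq : ∀ y, σB (BLift.b1 Xb j hj hfull hcol D hO hw H y) =
      BLift.b1 Xb j hj hfull hcol D hO hw H (σO y))
    (x : (D (S₀.src e)).Lh) :
    σB (b1F (nodeInput Xb j hj hfull hcol D hO hw H) (isDV_ofDatum D hO hw _) x) =
      b1F (nodeInput Xb j hj hfull hcol D hO hw H) (isDV_ofDatum D hO hw _) (σL x) :=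
  b1F_comm (nodeInput Xb j hj hfull hcol D hO hw H) (isDV_ofDatum D hO hw _)
    (σO : (D (S₀.src e)).Oh →+* (D (S₀.src e)).Oh) (σL : (D (S₀.src e)).Lh →+* (D (S₀.src e)).Lh)
    hσL σB hsq x

/-- the square on the fraction field of the component `tgt e`, at `BLift.nodeInput` -/
theorem b2F_comm_datum
    (σO : (D (S₀.tgt e)).Oh ≃+* (D (S₀.tgt e)).Oh) (σL : (D (S₀.tgt e)).Lh ≃+* (D (S₀.tgt e)).Lh)
    (hσL : ∀ y : (D (S₀.tgt e)).Oh, σL (y : (D (S₀.tgt e)).Lh) =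
      ((σO y : (D (S₀.tgt e)).Oh) : (D (S₀.tgt e)).Lh))
    (σB : BAmice (constK₁ L i j) →+* BAmice (constK₁ L i j))
    (hsq : ∀ y, σB (BLift.b2 Xb j hj hfull hcol D hO hw H y) =
      BLift.b2 Xb j hj hfull hcol D hO hw H (σO y))
    (x : (D (S₀.tgt e)).Lh) :
    σB (b2F (nodeInput Xb j hj hfull hcol D hO hw H) (isDV_ofDatum D hO hw _) x) =
      b2F (nodeInput Xb j hj hfull hcol D hO hw H) (isDV_ofDatum D hO hw _) (σL x) :=
  b2F_comm (nodeInput Xb j hj hfull hcol D hO hw H) (isDV_ofDatum D hO hw _)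
    (σO : (D (S₀.tgt e)).Oh →+* (D (S₀.tgt e)).Oh) (σL : (D (S₀.tgt e)).Lh →+* (D (S₀.tgt e)).Lh)
    hσL σB hsq x

end Datum

end Fermat.Agent.FF4.InertiaLead
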