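/-
PROGRAMME II (S40), block A2 = K1 typing, THE FINITE GALOIS LAYER (helper29).

`B` over `q ∤ M`, `I := B.inertiaSubgroupIn ℚ`, `S` a level of the modular tower stable under the
WHOLE Galois group (`hS : ∀ σ, GalStable q σ S`; such levels are cofinal:
`InertiaLevels.exists_galStable`).

* `resKS : I →* RingAut (KS q S)` : the restriction to the constants `K₀(S)` of the level;
* `GalLayer B S hS := I ⧸ ker resKS` : **the finite Galois layer**, a FINITE group
  (`finite_galLayer`: an inertia element is determined on `K₀(S)` by its values on `S`, helper21's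
  `eqOn_KS_of_eqOn`);
* for ANY component data `(Dd, hO)` over `Final.setupFinal B hB hqM hne` and `v : Fin 2`:
  `sigmaL σ v : (Dd v).Lh ≃+* (Dd v).Lh` (the action on the completed function field of the
  component, `= autL (galRing σ)`; `coe_sigmaF` : on `Ô_v` it is the landed `sigmaF`),
  `actL v : I →* RingAut (Dd v).Lh` (group law from helper21's `autL_trans_apply`),
  `ker_actL : ker (actL v) = ker resKS` (so the action factors EXACTLY through the layer);
* `layerHom v : GalLayer →* RingAut (Dd v).Lh`, injective (`layerHom_injective`);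
  `layerAction v : MulSemiringAction (GalLayer B S hS) (Dd v).Lh`, `faithful_layerAction`,
  `layer_smul_mk` : `mk σ • x = sigmaL σ v x`, `layer_smul_eq_out`, `layer_smul_mem_Oh_iff`.
  The SAME group acts faithfully on both components `v = 0, 1`: this is the shape of the
  hypotheses `[Group G] [Finite G] [MulSemiringAction G E_v] [FaithfulSMul G E_v]` of helper11's
  `AmiceLead.k1_abstract` and helper27's `Descent.descent`.
-/
import Mathlib
import Fermat.Agent.FF4.ExpPackCompGroup

set_option autoImplicit false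
set_option linter.unusedSectionVars false
set_option synthInstance.maxHeartbeats 400000
set_option maxHeartbeats 4000000
set_option linter.style.haveILetI false

noncomputable section

namespace Fermat.Agent.FF4.InertiaLead

open ModularCurve AlgebraicCurve IsLocalRing Fermat.Agent.X0 Fermat.Agent.Val Fermat.Agent.BR
  Fermat.Agent.Red Fermat.Agent.BR.SS Fermat.Agent.BR.Inst.Levels Fermat.Agent.BR.Inst.FKCover
  Fermat.Agent.BR.S0 Fermat.Agent.BR.S0.RedModular Fermat.Agent.BR.S0.PointDict
  Fermat.Agent.BR.ValTwo Fermat.Agent.FF3.B4 Fermat.Agent.FF3 Fermat.Agent.FF3.InertiaLevels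
  Fermat.Agent.BR.UnramCyclo Fermat.Agent.BR.UnramCycloTower
  Fermat.Agent.FF3.DVCompl Fermat.Agent.FF3.ExpPackComp Fermat.Agent.FF4.CompGroup

variable {M q : ℕ} [NeZero M] [hq : Fact q.Prime]
variable (B : ValuationSubring Kb) (hB : B.LiesOverPrime q) (hqM : ¬ q ∣ M) (S : Finset Kb)
variable (hS : ∀ σ : Kb ≃ₐ[ℚ] Kb, GalStable q σ S)

/-! ### the layer -/

/-- **the restriction of the inertia group to the constants of the level** -/
def resKS : ↥(B.inertiaSubgroupIn ℚ) →* RingAut ↥(KS q S) where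
  toFun σ := restrictEquiv (KS q S) ((σ : Kb ≃ₐ[ℚ] Kb) : Kb ≃+* Kb) (fun y => hS σ y)
  map_one' := RingEquiv.ext fun _ => Subtype.ext rfl
  map_mul' _ _ := RingEquiv.ext fun _ => Subtype.ext rfl

theorem coe_resKS_apply (σ : ↥(B.inertiaSubgroupIn ℚ)) (c : ↥(KS q S)) :
    ((resKS B S hS σ c : ↥(KS q S)) : Kb) = (σ : Kb ≃ₐ[ℚ] Kb) (c : Kb) := rfl

theorem mem_ker_resKS {σ : ↥(B.inertiaSubgroupIn ℚ)} :
    σ ∈ (resKS B S hS).ker ↔ ∀ c ∈ KS q S, (σ : Kb ≃ₐ[ℚ] Kb) c = c := by
  rw [MonoidHom.mem_ker]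
  constructor
  · intro h c hc
    have := congrArg (fun f : RingAut ↥(KS q S) => ((f ⟨c, hc⟩ : ↥(KS q S)) : Kb)) h
    exact this
  · intro h
    exact RingEquiv.ext fun c => Subtype.ext (h c c.2)

/-- **The finite Galois layer** of the level `S`: the image of the inertia group in the
automorphisms of the constants of the level. -/
abbrev GalLayer : Type := ↥(B.inertiaSubgroupIn ℚ) ⧸ (resKS B S hS).ker

include hB in
/-- **the Galois layer is finite** -/
theorem finite_galLayer : Finite (GalLayer B S hS) := by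
  classical
  -- the restriction to `S`
  let f : ↥(B.inertiaSubgroupIn ℚ) → (↥S → Kb) := fun σ x => (σ : Kb ≃ₐ[ℚ] Kb) (x : Kb)
  have hfin : (Set.range f).Finite := by
    have hsub : Set.range f ⊆
        Set.pi Set.univ fun x : ↥S => (minpoly ℚ (x : Kb)).rootSet Kb := by
      rintro _ ⟨σ, rfl⟩ x -
      have halg : Algebra.IsAlgebraic ℚ Kb := algebraIsAlgebraic_rat_algebraicClosure
      have hint : IsIntegral ℚ (x : Kb) := Algebra.IsIntegral.isIntegral _
      rw [Polynomial.mem_rootSet]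
      refine ⟨minpoly.ne_zero hint, ?_⟩
      show Polynomial.aeval ((σ : Kb ≃ₐ[ℚ] Kb) (x : Kb)) (minpoly ℚ (x : Kb)) = 0
      have := Polynomial.aeval_algHom_apply ((σ : Kb ≃ₐ[ℚ] Kb) : Kb →ₐ[ℚ] Kb) (x : Kb)
        (minpoly ℚ (x : Kb))
      rw [minpoly.aeval, map_zero] at this
      exact this
    exact (Set.Finite.pi fun x => Polynomial.rootSet_finite _ _).subset hsub
  haveI : Finite ↥(Set.range f) := hfin.to_subtype
  -- the layer injects into the set of restrictions
  let F : GalLayer B S hS → ↥(Set.range f) := fun g => ⟨f (Quotient.out g), ⟨_, rfl⟩⟩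
  refine Finite.of_injective F fun g g' h => ?_
  have h1 : f (Quotient.out g) = f (Quotient.out g') := congrArg Subtype.val h
  have h2 : ∀ c ∈ KS q S, ((Quotient.out g : ↥(B.inertiaSubgroupIn ℚ)) : Kb ≃ₐ[ℚ] Kb) c =
      ((Quotient.out g' : ↥(B.inertiaSubgroupIn ℚ)) : Kb ≃ₐ[ℚ] Kb) c :=
    eqOn_KS_of_eqOn B hB S (Quotient.out g).2 (Quotient.out g').2
      fun x hx => congrFun h1 ⟨x, hx⟩
  have h3 : (Quotient.out g)⁻¹ * Quotient.out g' ∈ (resKS B S hS).ker := by
    rw [mem_ker_resKS]
    intro c hc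
    show ((Quotient.out g : ↥(B.inertiaSubgroupIn ℚ)) : Kb ≃ₐ[ℚ] Kb)⁻¹
      (((Quotient.out g' : ↥(B.inertiaSubgroupIn ℚ)) : Kb ≃ₐ[ℚ] Kb) c) = c
    rw [← h2 c hc]
    exact AlgEquiv.symm_apply_apply _ c
  have h4 : (QuotientGroup.mk (Quotient.out g) : GalLayer B S hS) =
      QuotientGroup.mk (Quotient.out g') := QuotientGroup.eq.mpr h3
  rwa [QuotientGroup.out_eq', QuotientGroup.out_eq'] at h4

/-! ### the action on the completed function fields of the components -/

variable (hne : Nonempty (Crossing (chartDataModular B hB hqM)))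
  (Dd : Fin 2 → Datum (FKs (M * q) (KS q S)))
  (hO : ∀ v (x : FKs (M * q) (KS q S)),
    x ∈ (Dd v).O₀ ↔ (x : Fb (M * q)) ∈ (Final.setupFinal B hB hqM hne).O v)

/-- **the action of an inertia element on the completed function field of the component `v`** -/
def sigmaL (σ : ↥(B.inertiaSubgroupIn ℚ)) (v : Fin 2) : (Dd v).Lh ≃+* (Dd v).Lh :=
  autL (Dd v) ((Final.setupFinal B hB hqM hne).O v) (hO v) (galRing (M * q) σ)
    (galRing_mem_FKs_iff (M * q) (hS σ)) (setupFinal_gal_mem_O_iff B hB hqM hne σ.2 v)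

theorem sigmaL_emb (σ : ↥(B.inertiaSubgroupIn ℚ)) (v : Fin 2) (x : FKs (M * q) (KS q S)) :
    sigmaL B hB hqM S hS hne Dd hO σ v ((Dd v).emb x) =
      (Dd v).emb (restrictEquiv (FKs (M * q) (KS q S)) (galRing (M * q) σ)
        (galRing_mem_FKs_iff (M * q) (hS σ)) x) :=
  autL_emb _ _ _ _ _ _ x

theorem sigmaL_mem_Oh_iff (σ : ↥(B.inertiaSubgroupIn ℚ)) (v : Fin 2) (y : (Dd v).Lh) :
    sigmaL B hB hqM S hS hne Dd hO σ v y ∈ (Dd v).Oh ↔ y ∈ (Dd v).Oh :=
  autL_mem_Oh_iff _ _ _ _ _ _ y

/-- on the completed valuation ring it is `autO` (the landed `sigmaF`, cf. `sigmaF_apply`) -/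
theorem coe_autO_eq_sigmaL (σ : ↥(B.inertiaSubgroupIn ℚ)) (v : Fin 2) (y : (Dd v).Oh) :
    ((autO (Dd v) ((Final.setupFinal B hB hqM hne).O v) (hO v) (galRing (M * q) σ)
        (galRing_mem_FKs_iff (M * q) (hS σ)) (setupFinal_gal_mem_O_iff B hB hqM hne σ.2 v) y :
          (Dd v).Oh) : (Dd v).Lh) =
      sigmaL B hB hqM S hS hne Dd hO σ v (y : (Dd v).Lh) := rfl

/-- on the completed valuation ring it is the landed `sigmaF` -/
theorem coe_sigmaF {ϖ : FKs (M * q) (KS q S)} (hw : ∀ v, (Dd v).w = ϖ)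
    (σ : ↥(B.inertiaSubgroupIn ℚ)) (v : Fin 2) (y : (Dd v).Oh) :
    (Subtype.val (sigmaF B hB hqM S hne Dd hO hw σ.2 (hS σ) v y) : (Dd v).Lh) =
      sigmaL B hB hqM S hS hne Dd hO σ v (y : (Dd v).Lh) := rfl

theorem sigmaL_one (v : Fin 2) (y : (Dd v).Lh) :
    sigmaL B hB hqM S hS hne Dd hO 1 v y = y := by
  unfold sigmaL
  exact autL_eq_refl_of_fixes (Dd v) ((Final.setupFinal B hB hqM hne).O v) (hO v) _ _ _
    (fun x => galRing_one_apply (M * q) (x : Fb (M * q))) y

theorem sigmaL_mul (σ τ : ↥(B.inertiaSubgroupIn ℚ)) (v : Fin 2) (y : (Dd v).Lh) :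
    sigmaL B hB hqM S hS hne Dd hO (σ * τ) v y =
      sigmaL B hB hqM S hS hne Dd hO σ v (sigmaL B hB hqM S hS hne Dd hO τ v y) := by
  unfold sigmaL
  rw [← autL_trans_apply (Dd v) ((Final.setupFinal B hB hqM hne).O v) (hO v)
    (galRing (M * q) σ) (galRing (M * q) τ) (galRing_mem_FKs_iff (M * q) (hS σ))
    (setupFinal_gal_mem_O_iff B hB hqM hne σ.2 v) (galRing_mem_FKs_iff (M * q) (hS τ))
    (setupFinal_gal_mem_O_iff B hB hqM hne τ.2 v)
    (fun y => by
      show galRing (M * q) σ (galRing (M * q) τ y) ∈ _ ↔ _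
      rw [galRing_mem_FKs_iff (M * q) (hS σ), galRing_mem_FKs_iff (M * q) (hS τ)])
    (fun y => by
      show galRing (M * q) σ (galRing (M * q) τ y) ∈ _ ↔ _
      rw [setupFinal_gal_mem_O_iff B hB hqM hne σ.2 v,
        setupFinal_gal_mem_O_iff B hB hqM hne τ.2 v])]
  exact autL_congr (Dd v) ((Final.setupFinal B hB hqM hne).O v) (hO v) _ _ _ _ _ _
    (fun x => galRing_mul_apply (M * q) σ τ x) y

/-- **the action of the inertia group on the completed function field of the component `v`** -/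
def actL (v : Fin 2) : ↥(B.inertiaSubgroupIn ℚ) →* RingAut (Dd v).Lh where
  toFun σ := sigmaL B hB hqM S hS hne Dd hO σ v
  map_one' := RingEquiv.ext fun y => sigmaL_one B hB hqM S hS hne Dd hO v y
  map_mul' σ τ := RingEquiv.ext fun y => sigmaL_mul B hB hqM S hS hne Dd hO σ τ v y

@[simp] theorem actL_apply (v : Fin 2) (σ : ↥(B.inertiaSubgroupIn ℚ)) (y : (Dd v).Lh) :
    actL B hB hqM S hS hne Dd hO v σ y = sigmaL B hB hqM S hS hne Dd hO σ v y := rfl

/-- the constants of the level inside the level field -/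
theorem algebraMap_mem_FKs {c : Kb} (hc : c ∈ KS q S) :
    algebraMap Kb (Fb (M * q)) c ∈ FKs (M * q) (KS q S) :=
  Subfield.subset_closure (Or.inl ⟨c, hc, rfl⟩)

/-- **the action factors exactly through the Galois layer** -/
theorem ker_actL (v : Fin 2) :
    (actL B hB hqM S hS hne Dd hO v).ker = (resKS B S hS).ker := by
  ext σ
  rw [mem_ker_resKS, MonoidHom.mem_ker]
  constructor
  · intro h c hc
    have h1 := congrArg (fun f : RingAut (Dd v).Lh =>
      f ((Dd v).emb ⟨algebraMap Kb (Fb (M * q)) c, algebraMap_mem_FKs S hc⟩)) h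
    have h2 : sigmaL B hB hqM S hS hne Dd hO σ v
        ((Dd v).emb ⟨algebraMap Kb (Fb (M * q)) c, algebraMap_mem_FKs S hc⟩) =
        (Dd v).emb ⟨algebraMap Kb (Fb (M * q)) c, algebraMap_mem_FKs S hc⟩ := h1
    rw [sigmaL_emb] at h2
    have h3 := (Dd v).emb.injective h2
    have h4 : galRing (M * q) σ (algebraMap Kb (Fb (M * q)) c) = algebraMap Kb (Fb (M * q)) c :=
      congrArg Subtype.val h3
    rw [galRing_apply, gal_smul_algebraMap] at h4
    exact (algebraMap Kb (Fb (M * q))).injective h4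
  · intro h
    refine RingEquiv.ext fun y => ?_
    show sigmaL B hB hqM S hS hne Dd hO σ v y = y
    unfold sigmaL
    exact autL_eq_refl_of_fixes (Dd v) ((Final.setupFinal B hB hqM hne).O v) (hO v) _ _ _
      (fun x => gal_smul_eq_of_mem_FKs (KS q S) h x.2) y

/-- **the action of the Galois layer on the completed function field of the component `v`** -/
def layerHom (v : Fin 2) : GalLayer B S hS →* RingAut (Dd v).Lh :=
  QuotientGroup.lift (resKS B S hS).ker (actL B hB hqM S hS hne Dd hO v)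
    (fun σ hσ => by
      rw [← ker_actL B hB hqM S hS hne Dd hO v] at hσ
      exact hσ)

@[simp] theorem layerHom_mk (v : Fin 2) (σ : ↥(B.inertiaSubgroupIn ℚ)) :
    layerHom B hB hqM S hS hne Dd hO v (QuotientGroup.mk σ) =
      actL B hB hqM S hS hne Dd hO v σ := rfl

theorem layerHom_injective (v : Fin 2) :
    Function.Injective (layerHom B hB hqM S hS hne Dd hO v) := by
  rw [injective_iff_map_eq_one]
  intro g hg
  induction g using QuotientGroup.induction_on with
  | H σ =>
    rw [layerHom_mk] at hg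
    have : σ ∈ (actL B hB hqM S hS hne Dd hO v).ker := hg
    rw [ker_actL] at this
    exact (QuotientGroup.eq_one_iff σ).mpr this

theorem layerHom_eq_out (v : Fin 2) (g : GalLayer B S hS) (x : (Dd v).Lh) :
    layerHom B hB hqM S hS hne Dd hO v g x =
      sigmaL B hB hqM S hS hne Dd hO (Quotient.out g) v x := by
  conv_lhs => rw [← QuotientGroup.out_eq' g]
  rfl

/-- **the Galois layer acts on the completed function field of the component `v`** (not an
instance: it depends on the component data; use `letI`) -/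
@[reducible] def layerAction (v : Fin 2) : MulSemiringAction (GalLayer B S hS) (Dd v).Lh :=
  MulSemiringAction.compHom (Dd v).Lh (layerHom B hB hqM S hS hne Dd hO v)

theorem layer_smul_def (v : Fin 2) (g : GalLayer B S hS) (x : (Dd v).Lh) :
    letI := layerAction B hB hqM S hS hne Dd hO v
    g • x = layerHom B hB hqM S hS hne Dd hO v g x := rfl

theorem layer_smul_mk (v : Fin 2) (σ : ↥(B.inertiaSubgroupIn ℚ)) (x : (Dd v).Lh) :
    letI := layerAction B hB hqM S hS hne Dd hO v
    (QuotientGroup.mk σ : GalLayer B S hS) • x = sigmaL B hB hqM S hS hne Dd hO σ v x := rfl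

theorem layer_smul_eq_out (v : Fin 2) (g : GalLayer B S hS) (x : (Dd v).Lh) :
    letI := layerAction B hB hqM S hS hne Dd hO v
    g • x = sigmaL B hB hqM S hS hne Dd hO (Quotient.out g) v x := by
  conv_lhs => rw [← QuotientGroup.out_eq' g]
  rfl

/-- **the action of the Galois layer is faithful** -/
theorem faithful_layerAction (v : Fin 2) :
    letI := layerAction B hB hqM S hS hne Dd hO v
    FaithfulSMul (GalLayer B S hS) (Dd v).Lh := by
  letI := layerAction B hB hqM S hS hne Dd hO v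
  refine ⟨fun {g g'} h => ?_⟩
  apply layerHom_injective B hB hqM S hS hne Dd hO v
  exact RingEquiv.ext fun x => h x

theorem layer_smul_mem_Oh_iff (v : Fin 2) (g : GalLayer B S hS) (x : (Dd v).Lh) :
    letI := layerAction B hB hqM S hS hne Dd hO v
    g • x ∈ (Dd v).Oh ↔ x ∈ (Dd v).Oh := by
  rw [layer_smul_eq_out]
  exact sigmaL_mem_Oh_iff B hB hqM S hS hne Dd hO _ v x

/-- the elements of the layer fixing an element: `mk σ • x = x ↔ σ x = x` -/
theorem layer_mk_smul_eq_iff (v : Fin 2) (σ : ↥(B.inertiaSubgroupIn ℚ)) (x : (Dd v).Lh) :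
    letI := layerAction B hB hqM S hS hne Dd hO v
    (QuotientGroup.mk σ : GalLayer B S hS) • x = x ↔
      sigmaL B hB hqM S hS hne Dd hO σ v x = x := Iff.rfl

end Fermat.Agent.FF4.InertiaLead
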