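/-
PROGRAMME II (S40), spike K1-(b), item (n1), part 1 (helper29): the COEFFICIENTWISE action of an
isometric endomorphism of the constants on the node algebra.

`K` complete ultrametric, `π : K`, `σ : K →+* K` isometric with `σ π = π`.  helper11's
`AmiceLead.mapCoeff σ hσ : BAmice K →+* BAmice K` acts coefficientwise on both boundary rings; the
node relation `c'_m = c_{-m} π^{-m}` is preserved, so the pair `(mapCoeff, mapCoeff)` restricts to

* `nodeMap σ hσ hσπ : NodeB π →+* NodeB π` with `toX_nodeMap`, `toY_nodeMap` (the two squares),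
  `norm_nodeMap` (isometric), `nodeMap_algebraMap` (`σ`-semilinear), `nodeMap_X`, `nodeMap_Y`;
* `continuous_mapCoeff`, `mapCoeff_smul`, `mapCoeff_X`, `mapCoeff_X_inv` (complements to helper11);
* `intMap σ hσ hσπ : NodeInt π →+* NodeInt π` with `coe_intMap`, `intMap_cInt`, `intMap_XInt`,
  `intMap_YInt`.
-/
import Mathlib
import Fermat.Agent.FF4.AmiceLead.Galois
import Fermat.Agent.FF3.NodeRing.Int

set_option autoImplicit false
set_option linter.unusedSectionVars false

noncomputable section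

namespace Fermat.Agent.FF4.InertiaLead

open Fermat.Agent.FF3.Amice Fermat.Agent.FF3.NodeRing Fermat.Agent.FF4.AmiceLead

variable {K : Type*} [NormedField K] [IsUltrametricDist K] [CompleteSpace K] {π : K}
  (σ : K →+* K) (hσ : ∀ x : K, ‖σ x‖ = ‖x‖) (hσπ : σ π = π)

/-- the coefficientwise action on a boundary ring is continuous (it is isometric) -/
theorem continuous_mapCoeff : Continuous (mapCoeff σ hσ) :=
  (AddMonoidHomClass.isometry_of_norm (mapCoeff σ hσ) (norm_mapCoeff σ hσ)).continuous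

include hσπ in
/-- the node relation is preserved by the coefficientwise action -/
theorem nodeRel_mapCoeff {c c' : BAmice K} (h : NodeRel π c c') :
    NodeRel π (mapCoeff σ hσ c) (mapCoeff σ hσ c') := fun m => by
  rw [coeff_mapCoeff, coeff_mapCoeff, h m, map_mul, map_zpow₀, hσπ]

/-- **the coefficientwise action on the node algebra** -/
def nodeMap : NodeB π →+* NodeB π :=
  ((RingHom.prodMap (mapCoeff σ hσ) (mapCoeff σ hσ)).comp
      ((nodeSubalgebra π).val : NodeB π →+* BAmice K × BAmice K)).codRestrict (nodeSubalgebra π)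
    (fun z hπ0 => nodeRel_mapCoeff σ hσ hσπ (nodeRel hπ0 z))

@[simp] theorem toX_nodeMap (z : NodeB π) :
    toX (nodeMap σ hσ hσπ z) = mapCoeff σ hσ (toX z) := rfl

@[simp] theorem toY_nodeMap (z : NodeB π) :
    toY (nodeMap σ hσ hσπ z) = mapCoeff σ hσ (toY z) := rfl

/-- the coefficientwise action is isometric -/
theorem norm_nodeMap (z : NodeB π) : ‖nodeMap σ hσ hσπ z‖ = ‖z‖ := by
  rw [norm_def, norm_def, toX_nodeMap, toY_nodeMap, norm_mapCoeff, norm_mapCoeff]

/-- the coefficientwise action is `σ`-semilinear -/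
theorem nodeMap_algebraMap (a : K) :
    nodeMap σ hσ hσπ (algebraMap K (NodeB π) a) = algebraMap K (NodeB π) (σ a) := by
  refine ext_toX_toY ?_ ?_
  · rw [toX_nodeMap, AlgHom.commutes, AlgHom.commutes, mapCoeff_algebraMap]
  · rw [toY_nodeMap, AlgHom.commutes, AlgHom.commutes, mapCoeff_algebraMap]

theorem mapCoeff_smul (a : K) (z : BAmice K) :
    mapCoeff σ hσ (a • z) = σ a • mapCoeff σ hσ z := by
  rw [Algebra.smul_def, Algebra.smul_def, map_mul, mapCoeff_algebraMap]

theorem mapCoeff_X : mapCoeff σ hσ ((BAmice.X : (BAmice K)ˣ) : BAmice K) =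
    ((BAmice.X : (BAmice K)ˣ) : BAmice K) := by
  have h := mapCoeff_X_zpow σ hσ 1
  rwa [zpow_one] at h

theorem mapCoeff_X_inv : mapCoeff σ hσ ((BAmice.X⁻¹ : (BAmice K)ˣ) : BAmice K) =
    ((BAmice.X⁻¹ : (BAmice K)ˣ) : BAmice K) := by
  have h := mapCoeff_X_zpow σ hσ (-1)
  rwa [zpow_neg_one] at h

/-- the coordinate `X` is fixed -/
theorem nodeMap_X (hπ : π ≠ 0) : nodeMap σ hσ hσπ (X hπ) = X hπ := by
  refine ext_toX_toY ?_ ?_
  · rw [toX_nodeMap, toX_X, mapCoeff_X]
  · rw [toY_nodeMap, toY_X, mapCoeff_smul, mapCoeff_X_inv, hσπ]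

/-- the coordinate `Y` is fixed -/
theorem nodeMap_Y (hπ : π ≠ 0) : nodeMap σ hσ hσπ (Y hπ) = Y hπ := by
  refine ext_toX_toY ?_ ?_
  · rw [toX_nodeMap, toX_Y, mapCoeff_smul, mapCoeff_X_inv, hσπ]
  · rw [toY_nodeMap, toY_Y, mapCoeff_X]

/-- **the coefficientwise action on the integral node ring** -/
def intMap : NodeInt π →+* NodeInt π :=
  ((nodeMap σ hσ hσπ).comp (nodeInt π).subtype).codRestrict (nodeInt π)
    (fun g => by
      rw [mem_nodeInt]
      show ‖nodeMap σ hσ hσπ (g : NodeB π)‖ ≤ 1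
      rw [norm_nodeMap]
      exact g.2)

@[simp] theorem coe_intMap (g : NodeInt π) :
    ((intMap σ hσ hσπ g : NodeInt π) : NodeB π) = nodeMap σ hσ hσπ (g : NodeB π) := rfl

theorem intMap_cInt (a : K) (ha : ‖a‖ ≤ 1) :
    intMap σ hσ hσπ (cInt a ha) = cInt (σ a) ((hσ a).le.trans ha) :=
  Subtype.ext (by
    rw [coe_intMap, coe_cInt, coe_cInt, nodeMap_algebraMap])

theorem intMap_XInt (hπ : π ≠ 0) (hπ1 : ‖π‖ ≤ 1) :
    intMap σ hσ hσπ (XInt hπ hπ1) = XInt hπ hπ1 :=
  Subtype.ext (by rw [coe_intMap, coe_XInt, nodeMap_X])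

theorem intMap_YInt (hπ : π ≠ 0) (hπ1 : ‖π‖ ≤ 1) :
    intMap σ hσ hσπ (YInt hπ hπ1) = YInt hπ hπ1 :=
  Subtype.ext (by rw [coe_intMap, coe_YInt, nodeMap_Y])

end Fermat.Agent.FF4.InertiaLead
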