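/-
PROGRAMME II (S40), spike K1-(b), item (n1), part 2 (helper29): at ONE LEVEL of the tube of a node,
the action of a semilinear automorphism `g` which FIXES THE COORDINATE `u` AND THE THICKNESS on the
gluing diagram `BAmice K₁ ⟵ NodeB π₁ ⟶ BAmice K₁` (`FF3/InertiaLevels/NodeInst`) is the
COEFFICIENTWISE action of `σ` on the completed constants.

`L : AnnulusLevels A T ι`, `h : LevelAction L i g`, `(Ω, j, hj)` complete, `σΩ` isometric with
`σΩ ∘ j = j ∘ s`; hypotheses `hu : g • L.u = L.u`, `hthick : s L.thick = L.thick`.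

* `levelTwist_eq_intMap` : `h.levelTwist … = intMap σ₁ …` (`σ₁ = h.constK₁Hom …`), by the
  uniqueness of the twist (`LevelAction.levelTwist_unique`) and the termwise computation of the
  values `evB Q (intMap b) = σΩ (evB (g⁻¹ Q) b)`;
* `levelSigmaR_eq_nodeMap`, `levelSigmaB1_eq_mapCoeff`, `levelSigmaB2_eq_mapCoeff`;
* `coeff_levelSigmaB1`, `coeff_levelSigmaB2` : `coeff n (σB z) = σ₁ (coeff n z)`;
* `hasLead_levelSigmaB1`, `hasLead_levelSigmaB2` : **the leading constant is equivariant**: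
  `HasLead z c a → HasLead (σB z) (σ₁ c) a`.
-/
import Mathlib
import Fermat.Agent.FF4.InertiaLead.NodeMap
import Fermat.Agent.FF3.InertiaLevels.NodeInst

set_option autoImplicit false
set_option linter.unusedSectionVars false

noncomputable section

namespace Fermat.Agent.FF4.InertiaLead

open AlgebraicCurve IsLocalRing Fermat.Agent.Red Fermat.Agent.BR.Centre Fermat.Agent.BR.SS
  Fermat.Agent.BR.Refine Fermat.Agent.BR.S0 Fermat.Agent.BR.S0.AnnulusChartOfLevels
open Fermat.Agent.FF3 Fermat.Agent.FF3.ExpandBR Fermat.Agent.FF3.Expand Fermat.Agent.FF3.Amice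
  Fermat.Agent.FF3.NodeRing Fermat.Agent.FF3.InertiaLevels Fermat.Agent.FF4.AmiceLead

attribute [local instance] normedAlgebraSubfield

section Level

variable {K F : Type*} [Field K] [Field F] [Algebra K F]
  {A : ValuationSubring K} {T : Set (Place K F)} {ι : Type*}
  {L : AnnulusLevels A T ι} {i : ι} {g : SemilinearAut K F} (h : LevelAction L i g)
  {Ω : Type*} [NormedField Ω] [IsUltrametricDist Ω] [CompleteSpace Ω]
  (j : K →+* Ω) (hj : ∀ c : K, ‖j c‖ ≤ 1 ↔ c ∈ A)
  (σΩ : Ω →+* Ω) (hnorm : ∀ x, ‖σΩ x‖ = ‖x‖)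
  (hσj : ∀ c : K, σΩ (j c) = j (SemilinearAut.baseAut g c))
  (hu : g • L.u = L.u) (hthick : SemilinearAut.baseAut g L.thick = L.thick)

include hthick in
/-- the thickness of the level is fixed -/
theorem constK₁Hom_thickK₁ :
    h.constK₁Hom j σΩ hnorm hσj (thickK₁ L i j) = thickK₁ L i j :=
  Subtype.ext (by
    rw [LevelAction.coe_constK₁Hom, coe_thickK₁, hσj, hthick])

include hu in
/-- the coordinate of the level is fixed -/
theorem ringAut_uR : h.ringAut (uR L i) = uR L i := Subtype.ext hu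

include hu hσj in
/-- the parameters of the points: `σΩ (u (g⁻¹ Q)) = u (Q)` -/
theorem sigma_pointVal_perm (Q : T) :
    σΩ (pointVal L i j (h.perm Q)) = pointVal L i j Q := by
  show σΩ (j (evK (L := L) (i := i) (h.perm Q).2 (uR L i))) =
    j (evK (L := L) (i := i) Q.2 (uR L i))
  rw [hσj, ← h.evK_ringAut, ringAut_uR h hu]

include hj in
/-- the series of an element of the integral node ring converges at the points of the tube -/
theorem summable_term_pointVal (Q : T) (b : NodeInt (thickK₁ L i j)) :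
    Summable (NodeEval.term (pointVal L i j Q) (toX (b : NodeB (thickK₁ L i j)))) :=
  (NodeEval.nodeModelInt (thickK₁_ne_zero L i j hj) (norm_thickK₁_lt_one L i j hj)).convAt_tx
    (norm_thick_lt_pointVal L i j hj Q) (norm_pointVal_lt_one L i j hj Q) b

include hu in
/-- **the values of the coefficientwise action** -/
theorem evB_intMap (Q : T) (b : NodeInt (thickK₁ L i j)) :
    evB L i j hj (levelTarget L i j hj) Q
        (intMap (h.constK₁Hom j σΩ hnorm hσj) (h.norm_constK₁Hom j σΩ hnorm hσj)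
          (constK₁Hom_thickK₁ h j σΩ hnorm hσj hthick) b) =
      σΩ (evB L i j hj (levelTarget L i j hj) (h.perm Q) b) := by
  show (levelTarget L i j hj).evalAt _ _ _ _ = σΩ ((levelTarget L i j hj).evalAt _ _ _ b)
  rw [levelTarget_evalAt, levelTarget_evalAt]
  have hs := (summable_term_pointVal j hj (h.perm Q) b).hasSum
  have h2 := hs.map σΩ.toAddMonoidHom (LevelAction.continuous_of_norm σΩ hnorm)
  have h3 : (σΩ.toAddMonoidHom ∘
        NodeEval.term (pointVal L i j (h.perm Q)) (toX (b : NodeB (thickK₁ L i j)))) =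
      NodeEval.term (pointVal L i j Q)
        (toX ((intMap (h.constK₁Hom j σΩ hnorm hσj) (h.norm_constK₁Hom j σΩ hnorm hσj)
          (constK₁Hom_thickK₁ h j σΩ hnorm hσj hthick) b : NodeInt (thickK₁ L i j)) :
            NodeB (thickK₁ L i j))) := by
    funext n
    show σΩ (algebraMap (constK₁ L i j) Ω (BAmice.coeff n (toX (b : NodeB (thickK₁ L i j)))) *
        pointVal L i j (h.perm Q) ^ n) =
      algebraMap (constK₁ L i j) Ω (BAmice.coeff n (toX
        ((intMap (h.constK₁Hom j σΩ hnorm hσj) (h.norm_constK₁Hom j σΩ hnorm hσj)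
          (constK₁Hom_thickK₁ h j σΩ hnorm hσj hthick) b : NodeInt (thickK₁ L i j)) :
            NodeB (thickK₁ L i j)))) * pointVal L i j Q ^ n
    rw [map_mul, map_zpow₀, sigma_pointVal_perm h j σΩ hσj hu, coe_intMap, toX_nodeMap,
      coeff_mapCoeff]
    rfl
  rw [h3] at h2
  exact h2.tsum_eq

variable (hfull : LevelFullRes L i) (hcol : DenseNearOne j)

include hu in
/-- **the twist of the integral node ring is the coefficientwise action** -/
theorem levelTwist_eq_intMap :
    h.levelTwist j hj σΩ hnorm hσj hfull hcol =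
      intMap (h.constK₁Hom j σΩ hnorm hσj) (h.norm_constK₁Hom j σΩ hnorm hσj)
        (constK₁Hom_thickK₁ h j σΩ hnorm hσj hthick) :=
  (h.levelTwist_unique j hj σΩ hnorm hσj hfull hcol
    (intMap (h.constK₁Hom j σΩ hnorm hσj) (h.norm_constK₁Hom j σΩ hnorm hσj)
      (constK₁Hom_thickK₁ h j σΩ hnorm hσj hthick))
    (evB_intMap h j hj σΩ hnorm hσj hu hthick)).symm

end Level

section Branch

variable {K : Type} {F : Type*} [Field K] [Field F] [Algebra K F]
  {A : ValuationSubring K} [IsAlgClosed (ResidueField A)]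
  {ι₀ : Type} {Ft₀ : ι₀ → Type} [∀ v, Field (Ft₀ v)] [∀ v, Algebra (ResidueField A) (Ft₀ v)]
  {ν₀ : Type} {S₀ : SemistableSetup (F := F) A (residue A) ι₀ Ft₀ ν₀} {e : ν₀} {ι : Type*}
  {L : AnnulusLevels A (tube S₀ e) ι} (Xb : BranchData S₀ e L) {i : ι}
  {g : SemilinearAut K F} (h : LevelAction L i g)
  {Ω : Type*} [NormedField Ω] [IsUltrametricDist Ω] [CompleteSpace Ω]
  (j : K →+* Ω) (hj : ∀ c : K, ‖j c‖ ≤ 1 ↔ c ∈ A)
  (σΩ : Ω →+* Ω) (hnorm : ∀ x, ‖σΩ x‖ = ‖x‖)
  (hσj : ∀ c : K, σΩ (j c) = j (SemilinearAut.baseAut g c))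
  (hu : g • L.u = L.u) (hthick : SemilinearAut.baseAut g L.thick = L.thick)
  (hfull : LevelFullRes L i) (hcol : DenseNearOne j)
  (hsrc : ∀ y : F, g • y ∈ (S₀.O (S₀.src e)).nonunits ↔ y ∈ (S₀.O (S₀.src e)).nonunits)
  (htgt : ∀ y : F, g • y ∈ (S₀.O (S₀.tgt e)).nonunits ↔ y ∈ (S₀.O (S₀.tgt e)).nonunits)

include hu in
/-- **the action on the node algebra is the coefficientwise action** -/
theorem levelSigmaR_eq_nodeMap :
    h.levelSigmaR j hj σΩ hnorm hσj hfull hcol =
      nodeMap (h.constK₁Hom j σΩ hnorm hσj) (h.norm_constK₁Hom j σΩ hnorm hσj)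
        (constK₁Hom_thickK₁ h j σΩ hnorm hσj hthick) :=
  (NodeBdry.sigmaR_unique _ _ _ _ _ _ (fun b => by
    rw [levelTwist_eq_intMap h j hj σΩ hnorm hσj hu hthick hfull hcol, coe_intMap])).symm

include hu hthick in
/-- **the action on the first boundary ring is the coefficientwise action** -/
theorem levelSigmaB1_eq_mapCoeff :
    LevelAction.levelSigmaB1 Xb h j hj σΩ hnorm hσj hfull hcol hsrc =
      mapCoeff (h.constK₁Hom j σΩ hnorm hσj) (h.norm_constK₁Hom j σΩ hnorm hσj) := by
  unfold LevelAction.levelSigmaB1 NodeBdry.sigmaB1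
  refine (NodeBdry.extendX_unique _ _ _ _ _
    (continuous_mapCoeff _ (h.norm_constK₁Hom j σΩ hnorm hσj)) (fun z => ?_)).symm
  show mapCoeff _ _ (toX z) = toX (h.levelSigmaR j hj σΩ hnorm hσj hfull hcol z)
  rw [levelSigmaR_eq_nodeMap h j hj σΩ hnorm hσj hu hthick hfull hcol, toX_nodeMap]

include hu hthick in
/-- **the action on the second boundary ring is the coefficientwise action** -/
theorem levelSigmaB2_eq_mapCoeff :
    LevelAction.levelSigmaB2 Xb h j hj σΩ hnorm hσj hfull hcol htgt =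
      mapCoeff (h.constK₁Hom j σΩ hnorm hσj) (h.norm_constK₁Hom j σΩ hnorm hσj) := by
  unfold LevelAction.levelSigmaB2 NodeBdry.sigmaB2
  refine (NodeBdry.extendY_unique _ _ _ _ _
    (continuous_mapCoeff _ (h.norm_constK₁Hom j σΩ hnorm hσj)) (fun z => ?_)).symm
  show mapCoeff _ _ (toY z) = toY (h.levelSigmaR j hj σΩ hnorm hσj hfull hcol z)
  rw [levelSigmaR_eq_nodeMap h j hj σΩ hnorm hσj hu hthick hfull hcol, toY_nodeMap]

include hu hthick in
theorem coeff_levelSigmaB1 (z : BAmice (constK₁ L i j)) (n : ℤ) :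
    BAmice.coeff n (LevelAction.levelSigmaB1 Xb h j hj σΩ hnorm hσj hfull hcol hsrc z) =
      h.constK₁Hom j σΩ hnorm hσj (BAmice.coeff n z) := by
  rw [levelSigmaB1_eq_mapCoeff Xb h j hj σΩ hnorm hσj hu hthick hfull hcol hsrc, coeff_mapCoeff]

include hu hthick in
theorem coeff_levelSigmaB2 (z : BAmice (constK₁ L i j)) (n : ℤ) :
    BAmice.coeff n (LevelAction.levelSigmaB2 Xb h j hj σΩ hnorm hσj hfull hcol htgt z) =
      h.constK₁Hom j σΩ hnorm hσj (BAmice.coeff n z) := by
  rw [levelSigmaB2_eq_mapCoeff Xb h j hj σΩ hnorm hσj hu hthick hfull hcol htgt, coeff_mapCoeff]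

include hu hthick in
/-- **equivariance of the leading constant on the first boundary circle** -/
theorem hasLead_levelSigmaB1 {z : BAmice (constK₁ L i j)} {c : constK₁ L i j} {a : ℤ}
    (hz : HasLead z c a) :
    HasLead (LevelAction.levelSigmaB1 Xb h j hj σΩ hnorm hσj hfull hcol hsrc z)
      (h.constK₁Hom j σΩ hnorm hσj c) a := by
  rw [levelSigmaB1_eq_mapCoeff Xb h j hj σΩ hnorm hσj hu hthick hfull hcol hsrc]
  exact hz.map _ _

include hu hthick in
/-- **equivariance of the leading constant on the second boundary circle** -/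
theorem hasLead_levelSigmaB2 {z : BAmice (constK₁ L i j)} {c : constK₁ L i j} {a : ℤ}
    (hz : HasLead z c a) :
    HasLead (LevelAction.levelSigmaB2 Xb h j hj σΩ hnorm hσj hfull hcol htgt z)
      (h.constK₁Hom j σΩ hnorm hσj c) a := by
  rw [levelSigmaB2_eq_mapCoeff Xb h j hj σΩ hnorm hσj hu hthick hfull hcol htgt]
  exact hz.map _ _

end Branch

end Fermat.Agent.FF4.InertiaLead
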