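/-
PROGRAMME II (S40), spike K1-(b), item (n1), part 3 (helper29): THE MODULAR INSTANCE.

For `L := annulusLevels_modular_final B hB hqM hne e` (the levels of the tube of a crossing `e` of
the semistable model of `X₀(qM)` at `q`), `σ ∈ B.inertiaSubgroupIn ℚ`, a Galois-stable level `S`:
the LANDED action `modSigmaB1`, `modSigmaB2` of `σ` on the two boundary rings `BAmice K₁`
(`FF3/InertiaLevels/NodeInstModular`, fields `σB1`, `σB2` of the landed `Glue.NodeHom`) is the
COEFFICIENTWISE action of `modConstHom` (= the restriction of `σΩ` to the completed constants).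

* `gal_smul_u` : inertia fixes the coordinate `u` of the tube (it lies in the base level);
* `gal_smul_eq_of_mem_level_empty`, `sigma_thick` : inertia fixes the local ring of the base
  level `S = ∅` pointwise, hence the thickness;
* `modTwist_eq_intMap`, `modSigmaR_eq_nodeMap`, `modSigmaB1_eq_mapCoeff`, `modSigmaB2_eq_mapCoeff`;
* `coeff_modSigmaB1`, `coeff_modSigmaB2` : `coeff n (σB z) = modConstHom (coeff n z)`;
* `hasLead_modSigmaB1`, `hasLead_modSigmaB2` : **Λ-equivariance**:
  `HasLead z c a → HasLead (modSigmaB z) (modConstHom c) a`.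
-/
import Mathlib
import Fermat.Agent.FF4.InertiaLead.LevelLead
import Fermat.Agent.FF3.InertiaLevels.NodeInstModular
import Fermat.Agent.BR.Inst.InertiaBase

set_option autoImplicit false
set_option linter.unusedSectionVars false
set_option synthInstance.maxHeartbeats 400000

noncomputable section

namespace Fermat.Agent.FF4.InertiaLead

open AlgebraicCurve ModularCurve IsLocalRing
open Fermat.Agent.Red Fermat.Agent.Val Fermat.Agent.X0
open Fermat.Agent.BR Fermat.Agent.BR.SS Fermat.Agent.BR.Refine
open Fermat.Agent.BR.Centre Fermat.Agent.BR.S0 Fermat.Agent.BR.S0.RedModular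
open Fermat.Agent.BR.S0.PointDict Fermat.Agent.BR.S0.AnnulusChartOfLevels
open Fermat.Agent.BR.ValTwo Fermat.Agent.BR.Inst.Levels Fermat.Agent.BR.Inst.AnnulusInstFinal
open Fermat.Agent.BR.Inst.LocSub Fermat.Agent.BR.Inst.AnnulusInst
open Fermat.Agent.FF3 Fermat.Agent.FF3.ExpandBR Fermat.Agent.FF3.Expand Fermat.Agent.FF3.Amice
  Fermat.Agent.FF3.NodeRing Fermat.Agent.FF3.InertiaLevels Fermat.Agent.FF4.AmiceLead

attribute [local instance] normedAlgebraSubfield

local notation "Kb" => AlgebraicClosure ℚ

variable {M q : ℕ} [NeZero M] [hq : Fact q.Prime]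
variable (B : ValuationSubring Kb) (hB : B.LiesOverPrime q) (hqM : ¬ q ∣ M)
variable [IsAlgClosed (ResidueField B)]
variable (hne : Nonempty (Crossing (chartDataModular B hB hqM)))
variable (e : Crossing (chartDataModular B hB hqM))
variable {σ : Kb ≃ₐ[ℚ] Kb}

/-! ### inertia fixes the coordinate and the thickness -/

/-- **inertia fixes the coordinate of the tube of the crossing `e`** -/
theorem gal_smul_u (hσ : σ ∈ B.inertiaSubgroupIn ℚ) :
    gal (M * q) σ • (annulusLevels_modular_final B hB hqM hne e).u =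
      (annulusLevels_modular_final B hB hqM hne e).u :=
  Fermat.Agent.BR.Inst.InertiaBase.gal_smul_eq_of_mem_modelField_base B hq.out hB hσ
    (u_mem_base_modular_final B hB hqM hne e)

include hB in
/-- inertia fixes the normal model of the base level pointwise -/
theorem gal_smul_eq_of_mem_CS_empty (hσ : σ ∈ B.inertiaSubgroupIn ℚ) {y : Fb (M * q)}
    (hy : y ∈ CS (M * q) q (baseFin M q B) ∅) : gal (M * q) σ • y = y :=
  Fermat.Agent.BR.Inst.InertiaBase.gal_smul_eq_of_mem_modelField_base B hq.out hB hσ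
    (CS_le_FS (N := M * q) (q := q) (base := baseFin M q B) ∅ hy)

/-- **inertia fixes the local ring of the base level `S = ∅` pointwise** -/
theorem gal_smul_eq_of_mem_level_empty (hσ : σ ∈ B.inertiaSubgroupIn ℚ) {y : Fb (M * q)}
    (hy : y ∈ ((annulusLevels_modular_final B hB hqM hne e).level ∅).R) :
    gal (M * q) σ • y = y := by
  rw [level_R_eq] at hy
  obtain ⟨a, b, hb, hab⟩ := mem_locSub_iff.mp hy
  have hb0 : (b : Fb (M * q)) ≠ 0 := coe_ne_zero_of_notMem hb
  have h1 := congrArg (fun t => gal (M * q) σ • t) hab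
  simp only [smul_mul'] at h1
  rw [gal_smul_eq_of_mem_CS_empty B hB hσ a.2, gal_smul_eq_of_mem_CS_empty B hB hσ b.2,
    ← hab] at h1
  exact mul_right_cancel₀ hb0 h1

set_option maxHeartbeats 1000000 in
/-- **inertia fixes the thickness of the crossing `e`** -/
theorem sigma_thick (hσ : σ ∈ B.inertiaSubgroupIn ℚ) :
    σ (annulusLevels_modular_final B hB hqM hne e).thick =
      (annulusLevels_modular_final B hB hqM hne e).thick := by
  have hmem := ((annulusLevels_modular_final B hB hqM hne e).level ∅).thick_mem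
  rw [level_K'_eq, mem_constField_iff] at hmem
  obtain ⟨a, b, hb, hab⟩ := hmem
  have hb0 : (b : Fb (M * q)) ≠ 0 := fun h0 => hb (Subtype.ext h0)
  have h1 := congrArg (fun t => gal (M * q) σ • t) hab
  simp only [smul_mul'] at h1
  rw [gal_smul_eq_of_mem_level_empty B hB hqM hne e hσ a.2,
    gal_smul_eq_of_mem_level_empty B hB hqM hne e hσ b.2, gal_smul_algebraMap, ← hab] at h1
  exact (algebraMap Kb (Fb (M * q))).injective (mul_right_cancel₀ hb0 h1)

/-! ### the landed action is the coefficientwise action -/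

variable {Ω : Type*} [NormedField Ω] [IsUltrametricDist Ω] [CompleteSpace Ω]
  (j : Kb →+* Ω) (hj : ∀ c : Kb, ‖j c‖ ≤ 1 ↔ c ∈ B)
  (σΩ : Ω →+* Ω) (hnorm : ∀ x, ‖σΩ x‖ = ‖x‖) (hσj : ∀ c : Kb, σΩ (j c) = j (σ c))
variable (hσ : σ ∈ B.inertiaSubgroupIn ℚ) {S : Finset Kb} (hS : GalStable q σ S)

/-- the thickness of the level is fixed by `modConstHom` -/
theorem modConstHom_thickK₁ :
    modConstHom B hB hqM hne e j σΩ hnorm hσj hσ hS
        (thickK₁ (annulusLevels_modular_final B hB hqM hne e) S j) =
      thickK₁ (annulusLevels_modular_final B hB hqM hne e) S j :=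
  constK₁Hom_thickK₁ (levelAction_modular B hB hqM hne e hσ hS) j σΩ hnorm hσj
    (sigma_thick B hB hqM hne e hσ)

/-- **the twist of the integral node ring is the coefficientwise action** -/
theorem modTwist_eq_intMap :
    modTwist B hB hqM hne e j hj σΩ hnorm hσj hσ hS =
      intMap (modConstHom B hB hqM hne e j σΩ hnorm hσj hσ hS)
        (norm_modConstHom B hB hqM hne e j σΩ hnorm hσj hσ hS)
        (modConstHom_thickK₁ B hB hqM hne e j σΩ hnorm hσj hσ hS) :=
  levelTwist_eq_intMap (levelAction_modular B hB hqM hne e hσ hS) j hj σΩ hnorm hσj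
    (gal_smul_u B hB hqM hne e hσ) (sigma_thick B hB hqM hne e hσ) _ _

/-- **the action on the node algebra is the coefficientwise action** -/
theorem modSigmaR_eq_nodeMap :
    modSigmaR B hB hqM hne e j hj σΩ hnorm hσj hσ hS =
      nodeMap (modConstHom B hB hqM hne e j σΩ hnorm hσj hσ hS)
        (norm_modConstHom B hB hqM hne e j σΩ hnorm hσj hσ hS)
        (modConstHom_thickK₁ B hB hqM hne e j σΩ hnorm hσj hσ hS) :=
  levelSigmaR_eq_nodeMap (levelAction_modular B hB hqM hne e hσ hS) j hj σΩ hnorm hσj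
    (gal_smul_u B hB hqM hne e hσ) (sigma_thick B hB hqM hne e hσ) _ _

/-- **(n1) the landed action on the first boundary ring is the coefficientwise action** -/
theorem modSigmaB1_eq_mapCoeff :
    modSigmaB1 B hB hqM hne e j hj σΩ hnorm hσj hσ hS =
      mapCoeff (modConstHom B hB hqM hne e j σΩ hnorm hσj hσ hS)
        (norm_modConstHom B hB hqM hne e j σΩ hnorm hσj hσ hS) :=
  levelSigmaB1_eq_mapCoeff (branchData_modular_final B hB hqM hne e)
    (levelAction_modular B hB hqM hne e hσ hS) j hj σΩ hnorm hσj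
    (gal_smul_u B hB hqM hne e hσ) (sigma_thick B hB hqM hne e hσ) _ _ _

/-- **(n1) the landed action on the second boundary ring is the coefficientwise action** -/
theorem modSigmaB2_eq_mapCoeff :
    modSigmaB2 B hB hqM hne e j hj σΩ hnorm hσj hσ hS =
      mapCoeff (modConstHom B hB hqM hne e j σΩ hnorm hσj hσ hS)
        (norm_modConstHom B hB hqM hne e j σΩ hnorm hσj hσ hS) :=
  levelSigmaB2_eq_mapCoeff (branchData_modular_final B hB hqM hne e)
    (levelAction_modular B hB hqM hne e hσ hS) j hj σΩ hnorm hσj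
    (gal_smul_u B hB hqM hne e hσ) (sigma_thick B hB hqM hne e hσ) _ _ _

theorem coeff_modSigmaB1
    (z : BAmice (constK₁ (annulusLevels_modular_final B hB hqM hne e) S j)) (n : ℤ) :
    BAmice.coeff n (modSigmaB1 B hB hqM hne e j hj σΩ hnorm hσj hσ hS z) =
      modConstHom B hB hqM hne e j σΩ hnorm hσj hσ hS (BAmice.coeff n z) := by
  rw [modSigmaB1_eq_mapCoeff, coeff_mapCoeff]

theorem coeff_modSigmaB2
    (z : BAmice (constK₁ (annulusLevels_modular_final B hB hqM hne e) S j)) (n : ℤ) :
    BAmice.coeff n (modSigmaB2 B hB hqM hne e j hj σΩ hnorm hσj hσ hS z) =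
      modConstHom B hB hqM hne e j σΩ hnorm hσj hσ hS (BAmice.coeff n z) := by
  rw [modSigmaB2_eq_mapCoeff, coeff_mapCoeff]

/-- **Λ-equivariance on the first boundary circle**: the leading constant of `σB1 z` is
`σ (Λ z)`, with the same order. -/
theorem hasLead_modSigmaB1
    {z : BAmice (constK₁ (annulusLevels_modular_final B hB hqM hne e) S j)}
    {c : constK₁ (annulusLevels_modular_final B hB hqM hne e) S j} {a : ℤ}
    (hz : HasLead z c a) :
    HasLead (Fermat.Agent.FF3.InertiaLevels.modSigmaB1 B hB hqM hne e j hj σΩ hnorm hσj hσ hS z)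
      (modConstHom B hB hqM hne e j σΩ hnorm hσj hσ hS c) a := by
  rw [modSigmaB1_eq_mapCoeff]
  exact hz.map _ _

/-- **Λ-equivariance on the second boundary circle**. -/
theorem hasLead_modSigmaB2
    {z : BAmice (constK₁ (annulusLevels_modular_final B hB hqM hne e) S j)}
    {c : constK₁ (annulusLevels_modular_final B hB hqM hne e) S j} {a : ℤ}
    (hz : HasLead z c a) :
    HasLead (Fermat.Agent.FF3.InertiaLevels.modSigmaB2 B hB hqM hne e j hj σΩ hnorm hσj hσ hS z)
      (modConstHom B hB hqM hne e j σΩ hnorm hσj hσ hS c) a := by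
  rw [modSigmaB2_eq_mapCoeff]
  exact hz.map _ _

end Fermat.Agent.FF4.InertiaLead
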