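/-
PROGRAMME II (S40), block A2 = K1 typing, THE SQUARES ON FRACTIONS AT THE MODULAR TOWER (helper29).

`I := BLift.nodeInput_modular B hB hqM hne e j hj S D hO hw` (helper16, landed; any component data
`D` over `Final.setupFinal`), `b1F`, `b2F` helper20's extensions of the boundary maps to the
completed function fields of the two components (`FF4/BdryFrac`).  For
`σ ∈ B.inertiaSubgroupIn ℚ` and a level `S` stable under the whole Galois group:

* `b1F_sigmaL`, `b2F_sigmaL` : `b1F (σ x) = mapCoeff (modConstHom σ) (b1F x)` for `x` in the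
  completed function field of the component (landed squares `NodeBdry.modSigmaB1_b1`,
  `modSigmaB2_b2` + `modSigmaB1_eq_mapCoeff`, `modSigmaB2_eq_mapCoeff` of `ModularLead` +
  `b1F_comm_datum` of `FracEquiv`);
* for a family `σΩ : I → Ω →+* Ω` of isometric extensions (`AbsB.sigmaOmegaI` at the tower):
  `layerConst g := modConstHom (out g)`, `norm_layerConst`, and `b1F_layer_smul`,
  `b2F_layer_smul` : `b1F (g • x) = mapCoeff (layerConst g) (b1F x)` for `g` in the finite Galois
  layer (`GaloisLayer`; `g • x` is spelled `layerHom … v g x`, which is `g • x` for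
  `layerAction … v` by `layer_smul_def`, rfl) = the hypotheses `he₀ … he₁'` of helper11's
  `AmiceLead.k1_abstract`.
-/
import Mathlib
import Fermat.Agent.FF4.InertiaLead.FracEquiv
import Fermat.Agent.FF4.InertiaLead.GaloisLayer
import Fermat.Agent.FF4.InertiaLead.ModularLead
import Fermat.Agent.FF3.NodeBdry.SquareModular

set_option autoImplicit false
set_option linter.unusedSectionVars false
set_option synthInstance.maxHeartbeats 400000
set_option maxHeartbeats 4000000

noncomputable section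

namespace Fermat.Agent.FF4.InertiaLead

open AlgebraicCurve ModularCurve IsLocalRing Fermat.Agent.Red Fermat.Agent.X0
  Fermat.Agent.BR Fermat.Agent.BR.Centre Fermat.Agent.BR.S0 Fermat.Agent.BR.SS
  Fermat.Agent.BR.S0.RedModular
  Fermat.Agent.BR.S0.RedHyp Fermat.Agent.BR.S0.PointDict Fermat.Agent.BR.Inst.AnnulusInstFinal
  Fermat.Agent.BR.Inst.Levels Fermat.Agent.BR.Inst.NodeInst Fermat.Agent.BR.Inst.LocSub
  Fermat.Agent.FF3 Fermat.Agent.FF3.B4 Fermat.Agent.FF3.DVCompl Fermat.Agent.FF3.ExpandBR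
  Fermat.Agent.FF3.BLift Fermat.Agent.FF3.InertiaLevels Fermat.Agent.FF3.ExpPackComp
  Fermat.Agent.BR.ValTwo Fermat.Agent.FF3.NodeBdry Fermat.Agent.FF3.Amice
  Fermat.Agent.FF4.BdryFrac Fermat.Agent.FF4.AmiceLead

attribute [local instance] normedAlgebraSubfield

local notation "Kb" => AlgebraicClosure ℚ

variable {M q : ℕ} [NeZero M] [hq : Fact q.Prime]
variable (B : ValuationSubring Kb) (hB : B.LiesOverPrime q) (hqM : ¬ q ∣ M)
variable [IsAlgClosed (ResidueField B)]
variable (hne : Nonempty (Crossing (chartDataModular B hB hqM)))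
variable (e : Crossing (chartDataModular B hB hqM))
variable {Ω : Type} [NormedField Ω] [IsUltrametricDist Ω] [CompleteSpace Ω]
  (j : Kb →+* Ω) (hj : ∀ c : Kb, ‖j c‖ ≤ 1 ↔ c ∈ B)
  (S : Finset Kb) (hS : ∀ σ : Kb ≃ₐ[ℚ] Kb, InertiaLevels.GalStable q σ S)
  (D : Fin 2 → Datum (FS (M * q) q S))
  (hO : ∀ v (x : FS (M * q) q S),
    x ∈ (D v).O₀ ↔ (x : Fb (M * q)) ∈ (Final.setupFinal B hB hqM hne).O v)
  (hw : ∀ v, (D v).w = unifFS (M := M) B hB S)

/-- **equivariance of the first boundary expansion on the completed function field** -/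
theorem b1F_sigmaL (σ : ↥(B.inertiaSubgroupIn ℚ)) (σΩ : Ω →+* Ω) (hnorm : ∀ x, ‖σΩ x‖ = ‖x‖)
    (hσj : ∀ c : Kb, σΩ (j c) = j ((σ : Kb ≃ₐ[ℚ] Kb) c))
    (x : (D ((Final.setupFinal B hB hqM hne).src e)).Lh) :
    b1F (nodeInput_modular B hB hqM hne e j hj S D hO hw) (isDV_ofDatum D hO hw _)
        (sigmaL B hB hqM S hS hne D hO σ ((Final.setupFinal B hB hqM hne).src e) x) =
      mapCoeff (modConstHom B hB hqM hne e j σΩ hnorm hσj σ.2 (hS σ))
        (norm_modConstHom B hB hqM hne e j σΩ hnorm hσj σ.2 (hS σ))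
        (b1F (nodeInput_modular B hB hqM hne e j hj S D hO hw) (isDV_ofDatum D hO hw _) x) := by
  rw [← modSigmaB1_eq_mapCoeff B hB hqM hne e j hj σΩ hnorm hσj σ.2 (hS σ)]
  exact (b1F_comm_datum (branchData_modular_final B hB hqM hne e) S j hj
    (levelFullRes_modular_final B hB hqM hne e S)
    (BLift.denseNearOne_modular B hB hqM hne e j hj) D hO hw
    (levelLink_modular B hB hqM hne e S)
    (modAutO B hB hqM hne σ.2 (hS σ) D hO ((Final.setupFinal B hB hqM hne).src e))
    (sigmaL B hB hqM S hS hne D hO σ ((Final.setupFinal B hB hqM hne).src e))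
    (fun _ => rfl) (modSigmaB1 B hB hqM hne e j hj σΩ hnorm hσj σ.2 (hS σ))
    (fun y => modSigmaB1_b1 B hB hqM hne e j hj σΩ hnorm hσj σ.2 (hS σ) D hO hw y) x).symm

/-- **equivariance of the second boundary expansion on the completed function field** -/
theorem b2F_sigmaL (σ : ↥(B.inertiaSubgroupIn ℚ)) (σΩ : Ω →+* Ω) (hnorm : ∀ x, ‖σΩ x‖ = ‖x‖)
    (hσj : ∀ c : Kb, σΩ (j c) = j ((σ : Kb ≃ₐ[ℚ] Kb) c))
    (x : (D ((Final.setupFinal B hB hqM hne).tgt e)).Lh) :
    b2F (nodeInput_modular B hB hqM hne e j hj S D hO hw) (isDV_ofDatum D hO hw _)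
        (sigmaL B hB hqM S hS hne D hO σ ((Final.setupFinal B hB hqM hne).tgt e) x) =
      mapCoeff (modConstHom B hB hqM hne e j σΩ hnorm hσj σ.2 (hS σ))
        (norm_modConstHom B hB hqM hne e j σΩ hnorm hσj σ.2 (hS σ))
        (b2F (nodeInput_modular B hB hqM hne e j hj S D hO hw) (isDV_ofDatum D hO hw _) x) := by
  rw [← modSigmaB2_eq_mapCoeff B hB hqM hne e j hj σΩ hnorm hσj σ.2 (hS σ)]
  exact (b2F_comm_datum (branchData_modular_final B hB hqM hne e) S j hj
    (levelFullRes_modular_final B hB hqM hne e S)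
    (BLift.denseNearOne_modular B hB hqM hne e j hj) D hO hw
    (levelLink_modular B hB hqM hne e S)
    (modAutO B hB hqM hne σ.2 (hS σ) D hO ((Final.setupFinal B hB hqM hne).tgt e))
    (sigmaL B hB hqM S hS hne D hO σ ((Final.setupFinal B hB hqM hne).tgt e))
    (fun _ => rfl) (modSigmaB2 B hB hqM hne e j hj σΩ hnorm hσj σ.2 (hS σ))
    (fun y => modSigmaB2_b2 B hB hqM hne e j hj σΩ hnorm hσj σ.2 (hS σ) D hO hw y) x).symm

/-! ### the Galois layer -/

variable (σΩ : ↥(B.inertiaSubgroupIn ℚ) → Ω →+* Ω)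
  (hnorm : ∀ (σ : ↥(B.inertiaSubgroupIn ℚ)) (x : Ω), ‖σΩ σ x‖ = ‖x‖)
  (hσj : ∀ (σ : ↥(B.inertiaSubgroupIn ℚ)) (c : Kb), σΩ σ (j c) = j ((σ : Kb ≃ₐ[ℚ] Kb) c))

/-- **the action of the Galois layer on the completed constants of the level** at the crossing
`e` (through the representatives `Quotient.out`) -/
def layerConst (g : GalLayer B S hS) :
    constK₁ (annulusLevels_modular_final B hB hqM hne e) S j →+*
      constK₁ (annulusLevels_modular_final B hB hqM hne e) S j :=
  modConstHom B hB hqM hne e j (σΩ (Quotient.out g)) (hnorm _) (hσj _) (Quotient.out g).2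
    (hS _)

theorem coe_layerConst (g : GalLayer B S hS)
    (c : constK₁ (annulusLevels_modular_final B hB hqM hne e) S j) :
    ((layerConst B hB hqM hne e j S hS σΩ hnorm hσj g c :
      constK₁ (annulusLevels_modular_final B hB hqM hne e) S j) : Ω) =
      σΩ (Quotient.out g) (c : Ω) := rfl

theorem norm_layerConst (g : GalLayer B S hS)
    (c : constK₁ (annulusLevels_modular_final B hB hqM hne e) S j) :
    ‖layerConst B hB hqM hne e j S hS σΩ hnorm hσj g c‖ = ‖c‖ :=
  hnorm _ (c : Ω)

/-- **`he₀` of `k1_abstract`**: the first boundary expansion is equivariant for the Galois layer,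
acting coefficientwise -/
theorem b1F_layer_smul (g : GalLayer B S hS)
    (x : (D ((Final.setupFinal B hB hqM hne).src e)).Lh) :
    b1F (nodeInput_modular B hB hqM hne e j hj S D hO hw) (isDV_ofDatum D hO hw _)
        (layerHom B hB hqM S hS hne D hO ((Final.setupFinal B hB hqM hne).src e) g x) =
      mapCoeff (layerConst B hB hqM hne e j S hS σΩ hnorm hσj g)
        (norm_layerConst B hB hqM hne e j S hS σΩ hnorm hσj g)
        (b1F (nodeInput_modular B hB hqM hne e j hj S D hO hw) (isDV_ofDatum D hO hw _) x) := by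
  refine Eq.trans (congrArg
    (b1F (nodeInput_modular B hB hqM hne e j hj S D hO hw) (isDV_ofDatum D hO hw _))
    (layerHom_eq_out B hB hqM S hS hne D hO ((Final.setupFinal B hB hqM hne).src e) g x)) ?_
  exact b1F_sigmaL B hB hqM hne e j hj S hS D hO hw (Quotient.out g) (σΩ _) (hnorm _) (hσj _) x

/-- **`he₁` of `k1_abstract`**: the second boundary expansion is equivariant for the Galois
layer, acting coefficientwise -/
theorem b2F_layer_smul (g : GalLayer B S hS)
    (x : (D ((Final.setupFinal B hB hqM hne).tgt e)).Lh) :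
    b2F (nodeInput_modular B hB hqM hne e j hj S D hO hw) (isDV_ofDatum D hO hw _)
        (layerHom B hB hqM S hS hne D hO ((Final.setupFinal B hB hqM hne).tgt e) g x) =
      mapCoeff (layerConst B hB hqM hne e j S hS σΩ hnorm hσj g)
        (norm_layerConst B hB hqM hne e j S hS σΩ hnorm hσj g)
        (b2F (nodeInput_modular B hB hqM hne e j hj S D hO hw) (isDV_ofDatum D hO hw _) x) := by
  refine Eq.trans (congrArg
    (b2F (nodeInput_modular B hB hqM hne e j hj S D hO hw) (isDV_ofDatum D hO hw _))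
    (layerHom_eq_out B hB hqM S hS hne D hO ((Final.setupFinal B hB hqM hne).tgt e) g x)) ?_
  exact b2F_sigmaL B hB hqM hne e j hj S hS D hO hw (Quotient.out g) (σΩ _) (hnorm _) (hσj _) x

end Fermat.Agent.FF4.InertiaLead
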